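/-
S44, cell [D2] (helper26): CROSSING between the `Q̄`-level depth relation of the frame
(`T f = G ^ p * (1 + c * B)`, `B` Gauss-bounded over `A`) and the number-field depth predicate
`s44dn_Depth` of [D1] (over `L1 ⊆ Q̄`, `O = A ∩ L1`).

* `s44dq_isBdd_const` : constants of `O` are Gauss-bounded;
* `s44dq_bar_of_nf`   : `s44dn_Depth O M p π n x1`  ⟹  `ι x1 = G ^ p * (1 + π ^ n * B)` over `Q̄`;
* `s44dq_nf_of_bar`   : `ι x1 = (ι g1) ^ p * (1 + c * ι b1)`, `c ∈ 𝔪_A ∩ L1`  ⟹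
                        `s44dn_Depth O M p π 1 x1`.
Prefix `s44dq_`.
-/
import Mathlib
import Fermat.Agent.S44.DichNF.Main
import Fermat.Agent.S44.Bridge.NF
import Fermat.Agent.S44.Bridge.Arch

set_option autoImplicit false
set_option linter.unusedSectionVars false
set_option linter.unusedVariables false
set_option linter.style.haveILetI false
set_option maxHeartbeats 1000000
set_option synthInstance.maxHeartbeats 400000

noncomputable section

namespace Fermat.Agent.S44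

open ModularCurve AlgebraicCurve IntermediateField IsLocalRing
open Fermat.Agent.JT3 Fermat.Agent.S24 Fermat.Agent.SS Fermat.Agent.S35

local notation "Qb" => AlgebraicClosure ℚ

section Const

variable {O K : Type*} [CommRing O] [IsDomain O] [IsLocalRing O] [Field K] [Algebra O K]

/-- constants of `O` are Gauss-bounded. -/
theorem s44dq_isBdd_const (d : O) :
    gq_IsBdd O K (algebraMap K (LaurentSeries K) (algebraMap O K d)) := by
  have h := gq_isBdd_iota (O := O) (K := K) (HahnSeries.single 0 d : LaurentSeries O)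
  rwa [coeffMap_single, ← algebraMap_laurentSeries_eq_single] at h

end Const

section Cross

variable (M p : ℕ) [NeZero M] [NeZero p] [hpF : Fact p.Prime] (hpM : ¬ p ∣ M)
  (A : ValuationSubring Qb) (L1 : IntermediateField ℚ Qb)
  [IsDiscreteValuationRing ↥(A.comap (algebraMap ↥L1 Qb))]
  [CharP (ResidueField ↥(A.comap (algebraMap ↥L1 Qb))) p]

/-- **number field ⟹ `Q̄`.** -/
theorem s44dq_bar_of_nf (π : ↥(A.comap (algebraMap ↥L1 Qb))) (n : ℕ)
    (x1 : ↥(lg_F ↥L1 (M * p)))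
    (h : s44dn_Depth (A.comap (algebraMap ↥L1 Qb)) M p π n x1) :
    ∃ G B : Fbar (M * p), G ≠ 0 ∧ s44f_Int2 (M * p) A B ∧
      ssm_al_iotaF ↥L1 (M * p) x1 =
        G ^ p * (1 + algebraMap Qb (Fbar (M * p)) (((π : ↥L1) : Qb) ^ n) * B) := by
  obtain ⟨c, g, b, hc, hg, hb, e⟩ := h
  have hc' : algebraMap ↥L1 Qb c ≠ 0 := (map_ne_zero _).2 hc
  obtain ⟨d, hd⟩ := IsAlgClosed.exists_pow_nat_eq (algebraMap ↥L1 Qb c) hpF.out.pos
  have hd0 : d ≠ 0 := by
    rintro rfl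
    rw [zero_pow hpF.out.ne_zero] at hd
    exact hc' hd.symm
  refine ⟨algebraMap Qb (Fbar (M * p)) d * ssm_al_iotaF ↥L1 (M * p) g,
    ssm_al_iotaF ↥L1 (M * p) b, ?_, s44b_int2_iotaF (M * p) A L1 b hb, ?_⟩
  · exact mul_ne_zero ((map_ne_zero _).2 hd0) ((map_ne_zero _).2 hg)
  · have e1 : ssm_al_iotaF ↥L1 (M * p) (algebraMap ↥L1 ↥(lg_F ↥L1 (M * p)) c) =
        algebraMap Qb (Fbar (M * p)) d ^ p := by
      rw [ssm_al_iotaF_algebraMap, ← map_pow, hd]
    have e2 : ssm_al_iotaF ↥L1 (M * p) (algebraMap ↥L1 ↥(lg_F ↥L1 (M * p)) ((π : ↥L1))) =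
        algebraMap Qb (Fbar (M * p)) ((π : ↥L1) : Qb) := by
      rw [ssm_al_iotaF_algebraMap]
      rfl
    rw [e]
    simp only [map_mul, map_pow, map_add, map_one, e1, e2]
    ring

/-- **`Q̄` ⟹ number field** (depth one). -/
theorem s44dq_nf_of_bar (hA : A.LiesOverPrime p) [FiniteDimensional ℚ L1]
    {π : ↥(A.comap (algebraMap ↥L1 Qb))} (hπ : Irreducible π)
    (x1 g1 b1 : ↥(lg_F ↥L1 (M * p))) (c : ↥L1) (hcA : (c : Qb) ∈ A.nonunits) (hg : g1 ≠ 0)
    (hb : s44f_Int2 (M * p) A (ssm_al_iotaF ↥L1 (M * p) b1))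
    (e : ssm_al_iotaF ↥L1 (M * p) x1 = ssm_al_iotaF ↥L1 (M * p) g1 ^ p *
      (1 + algebraMap Qb (Fbar (M * p)) (c : Qb) * ssm_al_iotaF ↥L1 (M * p) b1)) :
    s44dn_Depth (A.comap (algebraMap ↥L1 Qb)) M p π 1 x1 := by
  have hb1 := (s44b_int2_iotaF_iff (M * p) A L1 hA hpF.out.ne_zero b1).1 hb
  have hcO : c ∈ (A.comap (algebraMap ↥L1 Qb)).nonunits :=
    (dsc_mem_comap_nonunits_iff A ↥L1 c).2 hcA
  have hcm : (⟨c, ValuationSubring.nonunits_subset hcO⟩ : ↥(A.comap (algebraMap ↥L1 Qb))) ∈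
      maximalIdeal ↥(A.comap (algebraMap ↥L1 Qb)) :=
    (ValuationSubring.coe_mem_nonunits_iff).1 hcO
  rw [hπ.maximalIdeal_eq, Ideal.mem_span_singleton] at hcm
  obtain ⟨d, hd⟩ := hcm
  have hcd : c = (π : ↥L1) * (d : ↥L1) := congrArg Subtype.val hd
  have ex : x1 = g1 ^ p * (1 + algebraMap ↥L1 ↥(lg_F ↥L1 (M * p)) c * b1) := by
    apply ssm_al_iotaF_injective ↥L1 (M * p)
    rw [e, map_mul, map_pow, map_add, map_one, map_mul, ssm_al_iotaF_algebraMap]
    rfl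
  refine ⟨1, g1, algebraMap ↥L1 ↥(lg_F ↥L1 (M * p)) (d : ↥L1) * b1, one_ne_zero, hg, ?_, ?_⟩
  · exact (gq_bddSubring ↥(A.comap (algebraMap ↥L1 Qb)) ↥L1).mul_mem
      (s44dq_isBdd_const (K := ↥L1) d) hb1
  · rw [ex, hcd, map_one, one_mul, pow_one, map_mul]
    ring

end Cross

end Fermat.Agent.S44
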