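/-
S44, cell [D2] (helper26), part (D2-b): DESCENT OF THE NORM RELATION to a number field, in the
vocabulary of the number-field dichotomy [D1] (`lg_F L (M p)`, norm under `ssm_gi_algebra`).

* `s44dq_norm_transport` : norms of equal intermediate fields agree (transport along equalities of
                           intermediate fields);
* `s44dq_coe_norm_eq`    : the underlying series of `Norm_{F_{Mp}(L)/F_M(L)} f` computed in the
                           `lg_F` tower (`ssm_gi_algebra`) and along `heckeAlphaBar L M p` agree;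
* `s44dq_norm_desc`      : `Norm_α (ι f1) = c · g^m` over `Q̄`  ⟹  `Norm f1 = a · s^m` over `L1`.
Prefix `s44dq_`.
-/
import Mathlib
import Fermat.Agent.S35.DescU.NormBC
import Fermat.Agent.SS2.DescPhi.Root
import Fermat.Agent.SS.Model.AL
import Fermat.Agent.SS.Model.TwoValInst
import Fermat.Agent.JT3.Riemann.FBar

set_option autoImplicit false
set_option linter.unusedSectionVars false
set_option linter.unusedVariables false
set_option linter.style.haveILetI false
set_option maxHeartbeats 400000

noncomputable section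

namespace Fermat.Agent.S44

open ModularCurve AlgebraicCurve IntermediateField
open Fermat.Agent.JT3 Fermat.Agent.S24 Fermat.Agent.SS Fermat.Agent.S35 Fermat.Agent.SS2

local notation "Qb" => AlgebraicClosure ℚ

section Transport

variable {K Ω : Type*} [Field K] [Field Ω] [Algebra K Ω]

/-- norms in towers of equal intermediate fields agree. -/
theorem s44dq_norm_transport {E₁ E₂ E₁' E₂' : IntermediateField K Ω} (h1 : E₁ = E₁')
    (h2 : E₂ = E₂') (hle : E₁ ≤ E₂) (hle' : E₁' ≤ E₂') (x : E₂) (x' : E₂')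
    (hx : (x : Ω) = (x' : Ω)) :
    (((letI := (IntermediateField.inclusion hle).toRingHom.toAlgebra
       Algebra.norm ↥E₁ x) : ↥E₁) : Ω) =
      (((letI := (IntermediateField.inclusion hle').toRingHom.toAlgebra
         Algebra.norm ↥E₁' x') : ↥E₁') : Ω) := by
  subst h1 h2
  obtain rfl : x = x' := Subtype.ext hx
  rfl

end Transport

section Desc

variable (M p : ℕ) [NeZero M] [NeZero p]
  (L1 : Type) [Field L1] [CharZero L1] [Algebra ℚ L1] [Algebra L1 Qb] [IsScalarTower ℚ L1 Qb]

theorem s44dq_mem_FL (N : ℕ) [NeZero N] (x : ↥(lg_F L1 N)) :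
    (x : LaurentSeries L1) ∈ laurentBaseChange L1 (modularFunctionFieldFull N) :=
  (lg_F_eq_laurentBaseChange L1 N).le x.2

theorem s44dq_mem_lgF (N : ℕ) [NeZero N]
    (x : ↥(laurentBaseChange L1 (modularFunctionFieldFull N))) :
    (x : LaurentSeries L1) ∈ lg_F L1 N :=
  (lg_F_eq_laurentBaseChange L1 N).ge x.2

/-- the element of the prelude-form level field with the same underlying series -/
def s44dq_toFL (N : ℕ) [NeZero N] (x : ↥(lg_F L1 N)) :
    ↥(laurentBaseChange L1 (modularFunctionFieldFull N)) :=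
  ⟨(x : LaurentSeries L1), s44dq_mem_FL L1 N x⟩

@[simp] theorem s44dq_coe_toFL (N : ℕ) [NeZero N] (x : ↥(lg_F L1 N)) :
    ((s44dq_toFL L1 N x : ↥(laurentBaseChange L1 (modularFunctionFieldFull N))) :
      LaurentSeries L1) = (x : LaurentSeries L1) := Subtype.coe_mk _ _

/-- the element of `lg_F` with the same underlying series -/
def s44dq_ofFL (N : ℕ) [NeZero N] (x : ↥(laurentBaseChange L1 (modularFunctionFieldFull N))) :
    ↥(lg_F L1 N) :=
  ⟨(x : LaurentSeries L1), s44dq_mem_lgF L1 N x⟩

@[simp] theorem s44dq_coe_ofFL (N : ℕ) [NeZero N]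
    (x : ↥(laurentBaseChange L1 (modularFunctionFieldFull N))) :
    ((s44dq_ofFL L1 N x : ↥(lg_F L1 N)) : LaurentSeries L1) = (x : LaurentSeries L1) :=
  Subtype.coe_mk _ _

/-- the two computations of the norm `F_{M p}(L1) → F_M(L1)` agree on underlying series. -/
theorem s44dq_coe_norm_eq (f1 : ↥(lg_F L1 (M * p))) :
    (((letI := ssm_gi_algebra (ssm_al_F_le L1 M p)
       Algebra.norm ↥(lg_F L1 M) f1) : ↥(lg_F L1 M)) : LaurentSeries L1) =
      ((s35pe_normAlong (heckeAlphaBar L1 M p) (s44dq_toFL L1 (M * p) f1) :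
        ↥(laurentBaseChange L1 (modularFunctionFieldFull M))) : LaurentSeries L1) :=
  s44dq_norm_transport (lg_F_eq_laurentBaseChange L1 M) (lg_F_eq_laurentBaseChange L1 (M * p))
    (ssm_al_F_le L1 M p) (s35d_FL_mono L1 (Dvd.intro p rfl)) f1 (s44dq_toFL L1 (M * p) f1)
    (s44dq_coe_toFL L1 (M * p) f1).symm

/-- **descent of the norm relation**: if the `α`-norm of `ι f1` is a constant times an `m`-th
power over `Q̄`, the norm of `f1` is a constant times an `m`-th power over `L1`. -/
theorem s44dq_norm_desc (hp : p.Prime) (hpM : ¬ p ∣ M) {m : ℕ} (hm : m ≠ 0)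
    (f1 : ↥(lg_F L1 (M * p))) (F : Fbar (M * p))
    (hF : (F : LaurentSeries Qb) = coeffMap (algebraMap L1 Qb) (f1 : LaurentSeries L1))
    (h : ∃ (c : Qb) (g : Fbar M),
      s35pe_normAlong (heckeAlphaBar Qb M p) F = algebraMap Qb (Fbar M) c * g ^ m) :
    letI := ssm_gi_algebra (ssm_al_F_le L1 M p)
    ∃ (a : L1) (s : ↥(lg_F L1 M)),
      Algebra.norm ↥(lg_F L1 M) f1 = algebraMap L1 ↥(lg_F L1 M) a * s ^ m := by
  obtain ⟨c, g, hcg⟩ := h
  have hFbc : F = dsc_bcHom L1 Qb (modularFunctionFieldFull (M * p)) (s44dq_toFL L1 (M * p) f1) := by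
    apply Subtype.ext
    rw [hF, dsc_bcHom_coe, s44dq_coe_toFL]
    rfl
  have hbc := s35d_norm_bc_alpha M p hp hpM L1 (s44dq_toFL L1 (M * p) f1)
  rw [← hFbc, hcg] at hbc
  obtain ⟨a, s, has⟩ := ss2_dp_root_descent (F₀ := modularFunctionFieldFull M) L1
    (rt_isSepGen_jBar M) hm
    (s35pe_normAlong (heckeAlphaBar L1 M p) (s44dq_toFL L1 (M * p) f1)) c g hbc.symm
  refine ⟨a, s44dq_ofFL L1 M s, ?_⟩
  apply Subtype.ext
  rw [s44dq_coe_norm_eq, has]
  simp only [IntermediateField.coe_mul, IntermediateField.coe_pow,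
    IntermediateField.coe_algebraMap_apply, s44dq_coe_ofFL]

end Desc

end Fermat.Agent.S44
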