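/-
S44, cell [D2], SUB-D2a (helper8; owner of [D2]: helper26; prefix `s44dqn_`).

For a representative `f` of `z ∈ J₀(M p)` (`div f = p D`, `[D] = z`, `s44f_Rep`):

* `s44dqn_Wbar_Wbar`   : the Atkin–Lehner endomorphism `W̄ = ssm_al_Wbar M p hp hpM` of `F̄_{M p}` is an
                          involution; `s44dqn_WbarEquiv` the corresponding ring automorphism;
* `s44dqn_norm_Wbar`   : `N_α (W̄ f) = N_β f` (norms along `heckeAlphaBar`, `heckeBetaBar`,
                          spelled `s35pe_normAlong`);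
* `s44dqn_alpha`       : `(α_p)_* z = 0 ⟹ N_α f = g ^ p` with `g ≠ 0`;
* `s44dqn_beta`        : `(β_p)_* z = 0 ⟹ N_α (W̄ f) = g ^ p` with `g ≠ 0`;
* `s44dqn_beta'`       : `(β_p)_* z = 0 ⟹ N_β f = g ^ p` with `g ≠ 0`.

(The constant of `s35k_push_kummer` is absorbed: `Q̄` is algebraically closed.)
-/
import Fermat.Agent.S44.Frame
import Fermat.Agent.S35.KummerGeom
import Fermat.Agent.S35.PEquiv.Inst

set_option autoImplicit false
set_option linter.unusedSectionVars false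
set_option linter.style.haveILetI false
set_option synthInstance.maxHeartbeats 400000
set_option maxHeartbeats 1000000

noncomputable section

namespace Fermat.Agent.S44

open ModularCurve AlgebraicCurve Fermat.Agent.S24 Fermat.Agent.JT3 Fermat.Agent.S35
  Fermat.Agent.SS

section

variable (M p : ℕ) [NeZero M] [NeZero p]

/-- a norm along `φ` which is a constant times a `p`-th power is a `p`-th power -/
theorem s44dqn_absorb {F : Type*} [Field F] [Algebra Kbar F] {x : F} (hx : x ≠ 0)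
    (h : ∃ (c : Kbar) (h : F), h ≠ 0 ∧ x = algebraMap Kbar F c * h ^ p) :
    ∃ g : F, g ≠ 0 ∧ x = g ^ p := by
  obtain ⟨c, h, hh, hc⟩ := h
  have hc0 : c ≠ 0 := by
    rintro rfl
    rw [map_zero, zero_mul] at hc
    exact hx hc
  obtain ⟨d, hd⟩ := IsAlgClosed.exists_pow_nat_eq c (Nat.pos_of_ne_zero (NeZero.ne p))
  have hd0 : d ≠ 0 := by
    rintro rfl
    rw [zero_pow (NeZero.ne p)] at hd
    exact hc0 hd.symm
  refine ⟨algebraMap Kbar F d * h, mul_ne_zero ?_ hh, ?_⟩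
  · exact (map_ne_zero_iff _ (algebraMap Kbar F).injective).2 hd0
  · rw [hc, mul_pow, ← map_pow, hd]

theorem s44dqn_normAlong_ne_zero {f : Fbar (M * p)} (hf : f ≠ 0) :
    s35pe_normAlong (heckeAlphaBar Kbar M p) f ≠ 0 := by
  letI := algebraAlong (heckeAlphaBar Kbar M p)
  haveI : Module.Finite (Fbar M) (Fbar (M * p)) := hib_finiteAlong_alpha M p
  exact Algebra.norm_ne_zero_iff.mpr hf

theorem s44dqn_normAlong_beta_ne_zero {f : Fbar (M * p)} (hf : f ≠ 0) :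
    s35pe_normAlong (heckeBetaBar Kbar M p) f ≠ 0 := by
  letI := algebraAlong (heckeBetaBar Kbar M p)
  haveI : Module.Finite (Fbar M) (Fbar (M * p)) := hib_finiteAlong_beta M p
  exact Algebra.norm_ne_zero_iff.mpr hf

/-- **`(α_p)_* z = 0 ⟹ N_α f = g ^ p`.** -/
theorem s44dqn_alpha (z : JZero (M * p)) (f : Fbar (M * p)) (hf : s44f_Rep (M * p) p z f)
    (hz : s35p_P1J M p z = 0) :
    ∃ g : Fbar M, g ≠ 0 ∧ s35pe_normAlong (heckeAlphaBar Kbar M p) f = g ^ p := by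
  obtain ⟨hf0, D, rfl, hD⟩ := hf
  exact s44dqn_absorb p (s44dqn_normAlong_ne_zero M p hf0)
    (s35k_push_kummer (rt_isSepGen_jBar M) _ _ _ _ D hf0 hD hz)

/-- **`(β_p)_* z = 0 ⟹ N_β f = g ^ p`.** -/
theorem s44dqn_beta' (z : JZero (M * p)) (f : Fbar (M * p)) (hf : s44f_Rep (M * p) p z f)
    (hz : s35p_P2J M p z = 0) :
    ∃ g : Fbar M, g ≠ 0 ∧ s35pe_normAlong (heckeBetaBar Kbar M p) f = g ^ p := by
  obtain ⟨hf0, D, rfl, hD⟩ := hf
  exact s44dqn_absorb p (s44dqn_normAlong_beta_ne_zero M p hf0)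
    (s35k_push_kummer (rt_isSepGen_jBar M) _ _ _ _ D hf0 hD hz)

end

section W

variable (M p : ℕ) [NeZero M] [NeZero p] (hp : p.Prime) (hpM : ¬ p ∣ M)

/-- `W̄ ∘ W̄ = id`. -/
theorem s44dqn_Wbar_comp_self :
    (ssm_al_Wbar M p hp hpM).comp (ssm_al_Wbar M p hp hpM) = AlgHom.id Kbar (Fbar (M * p)) := by
  refine IntermediateField.algHom_ext_of_eq_adjoin Kbar (S := s35pe_FL (M * p))
    (s := {jqModC Kbar, qExpand Kbar (M * p) (jqModC Kbar)}) (s35pe_FL_adjoin_pair (M * p)) ?_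
  intro x hx
  rw [AlgHom.comp_apply, AlgHom.id_apply]
  rcases hx with rfl | rfl
  · -- `j = α (j)`
    rw [show (⟨jqModC Kbar, _⟩ : s35pe_FL (M * p)) =
      heckeAlphaBar Kbar M p ⟨jqModC Kbar, s35pe_j_mem M⟩ from Subtype.ext rfl]
    rw [ssm_al_Wbar_alpha, ssm_al_Wbar_beta]
  · -- `j(X^{M p}) = β (j(X^M))`
    rw [show (⟨qExpand Kbar (M * p) (jqModC Kbar), _⟩ : s35pe_FL (M * p)) =
      heckeBetaBar Kbar M p ⟨qExpand Kbar M (jqModC Kbar), s35pe_jd_mem M dvd_rfl⟩ from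
        Subtype.ext (by
          rw [coe_heckeBetaBar]
          show qExpand Kbar (M * p) (jqModC Kbar) = qExpand Kbar p (qExpand Kbar M (jqModC Kbar))
          rw [qExpand_qExpand]
          exact qExpand_congr (mul_comm M p) _)]
    rw [ssm_al_Wbar_beta, ssm_al_Wbar_alpha]

theorem s44dqn_Wbar_Wbar (x : Fbar (M * p)) :
    ssm_al_Wbar M p hp hpM (ssm_al_Wbar M p hp hpM x) = x :=
  DFunLike.congr_fun (s44dqn_Wbar_comp_self M p hp hpM) x

/-- `W̄` as a ring automorphism of `F̄_{M p}`. -/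
def s44dqn_WbarEquiv : Fbar (M * p) ≃+* Fbar (M * p) :=
  RingEquiv.ofRingHom (ssm_al_Wbar M p hp hpM : Fbar (M * p) →+* Fbar (M * p))
    (ssm_al_Wbar M p hp hpM : Fbar (M * p) →+* Fbar (M * p))
    (RingHom.ext fun x => s44dqn_Wbar_Wbar M p hp hpM x)
    (RingHom.ext fun x => s44dqn_Wbar_Wbar M p hp hpM x)

theorem s44dqn_WbarEquiv_apply (x : Fbar (M * p)) :
    s44dqn_WbarEquiv M p hp hpM x = ssm_al_Wbar M p hp hpM x := rfl

/-- **`N_α (W̄ f) = N_β f`.** -/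
theorem s44dqn_norm_Wbar (f : Fbar (M * p)) :
    s35pe_normAlong (heckeAlphaBar Kbar M p) (ssm_al_Wbar M p hp hpM f) =
      s35pe_normAlong (heckeBetaBar Kbar M p) f := by
  have h := @Algebra.norm_eq_of_equiv_equiv (Fbar M) (Fbar (M * p)) (Fbar M) (Fbar (M * p))
    _ _ _ _ (algebraAlong (heckeBetaBar Kbar M p)) (algebraAlong (heckeAlphaBar Kbar M p))
    (RingEquiv.refl (Fbar M)) (s44dqn_WbarEquiv M p hp hpM)
    (RingHom.ext fun x => (ssm_al_Wbar_beta M p hp hpM x).symm) f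
  exact h.symm

/-- **`(β_p)_* z = 0 ⟹ N_α (W̄ f) = g ^ p`.** -/
theorem s44dqn_beta (z : JZero (M * p)) (f : Fbar (M * p)) (hf : s44f_Rep (M * p) p z f)
    (hz : s35p_P2J M p z = 0) :
    ∃ g : Fbar M, g ≠ 0 ∧
      s35pe_normAlong (heckeAlphaBar Kbar M p) (ssm_al_Wbar M p hp hpM f) = g ^ p := by
  rw [s44dqn_norm_Wbar]
  exact s44dqn_beta' M p z f hf hz

end W

end Fermat.Agent.S44
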