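/-
S44, cell [D2] (helper26): the dichotomy cell of the frame (version 2),

  `s44dq_dich : s44_Dich_stmt (s44_frame2 P M hpM)`,

from the number-field dichotomy [D1] (`s44dn_main`, helper14).

Route: a single representative `f` of `z` satisfies both depth relations (`s44b_depth2_any_rep`);
all the data descend to a number field `L1 ⊆ Q̄` (`s44b_exists_nf`); `O := A ∩ L1` is a DVR with
uniformiser `π`; the two norm hypotheses of [D1] come from `(α_p)_* z = (β_p)_* z = 0`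
(`s44dqn_alpha/beta` + `s44dq_norm_desc`); the depth-one hypotheses come from `D1inf`, `D10`
(`s44dq_nf_of_bar`); [D1] gives every depth `π ^ n`, which goes back to `Q̄` (`s44dq_bar_of_nf`) and
gives `Split` by the archimedean property of `A` (`s44b_split2_of_pow`).
Prefix `s44dq_`.
-/
import Mathlib
import Fermat.Agent.S44.DQbar.NormDesc
import Fermat.Agent.S44.DQbar.NormPow
import Fermat.Agent.S44.DQbar.Cross
import Fermat.Agent.S44.Bridge.Rep
import Fermat.Agent.S44.Bridge.FrameCor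
import Fermat.Agent.SS.CoreNFLeg

set_option autoImplicit false
set_option linter.unusedSectionVars false
set_option linter.unusedVariables false
set_option linter.style.haveILetI false
set_option maxHeartbeats 1000000
set_option synthInstance.maxHeartbeats 400000

noncomputable section

namespace Fermat.Agent.S44

open ModularCurve AlgebraicCurve IntermediateField IsLocalRing
open Fermat.Agent.JT3 Fermat.Agent.S24 Fermat.Agent.SS Fermat.Agent.S35

local notation "Qb" => AlgebraicClosure ℚ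

section Core

variable (M p : ℕ) [NeZero M] [NeZero p] [hpF : Fact p.Prime] (hpM : ¬ p ∣ M)
  (A : ValuationSubring Qb) (hA : A.LiesOverPrime p)

include hA in
/-- **the core of [D2]**, over any place `A` of `Q̄` above `p`: depth `> 0` at both components
together with `(α_p)_* z = (β_p)_* z = 0` gives every depth `π ^ n`. -/
theorem s44dq_core (z : JZero (M * p)) (hz : p • z = 0)
    (has : s35p_P1J M p z = 0) (hbs : s35p_P2J M p z = 0)
    {c₁ c₀ : Qb} (hc₁A : c₁ ∈ A.nonunits) (hc₀A : c₀ ∈ A.nonunits)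
    (h1 : s44f_Depth2 (M * p) A p c₁ (AlgHom.id _ _) z)
    (h0 : s44f_Depth2 (M * p) A p c₀ (ssm_al_Wbar M p hpF.out hpM) z) :
    ∃ π : Qb, π ∈ A.nonunits ∧ π ≠ 0 ∧ ∀ n : ℕ, 1 ≤ n →
      s44f_Depth2 (M * p) A p (π ^ n) (AlgHom.id _ _) z ∧
      s44f_Depth2 (M * p) A p (π ^ n) (ssm_al_Wbar M p hpF.out hpM) z := by
  classical
  have hp0 : p ≠ 0 := hpF.out.ne_zero
  -- one representative, two relations
  obtain ⟨f, hf⟩ := s44b_rep_exists (M * p) hz
  obtain ⟨g₁, b₁, hg₁, hb₁, e₁⟩ :=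
    s44b_depth2_any_rep (M * p) A hp0 (AlgHom.id _ _) h1 hf
  obtain ⟨g₀, b₀, hg₀, hb₀, e₀⟩ :=
    s44b_depth2_any_rep (M * p) A hp0 (ssm_al_Wbar M p hpF.out hpM) h0 hf
  rw [AlgHom.id_apply] at e₁
  -- the number field
  obtain ⟨L1, hfd, -, hT, hS⟩ := s44b_exists_nf (M * p) {f, g₁, b₁, g₀, b₀} {c₁, c₀}
  obtain ⟨f1, hf1⟩ := hS f (by simp)
  obtain ⟨g11, hg11⟩ := hS g₁ (by simp)
  obtain ⟨b11, hb11⟩ := hS b₁ (by simp)
  obtain ⟨g01, hg01⟩ := hS g₀ (by simp)
  obtain ⟨b01, hb01⟩ := hS b₀ (by simp)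
  have hc₁L : c₁ ∈ L1 := hT (by simp)
  have hc₀L : c₀ ∈ L1 := hT (by simp)
  -- the DVR
  haveI : FiniteDimensional ℚ ↥L1 := hfd
  haveI : NumberField ↥L1 := { to_charZero := inferInstance, to_finiteDimensional := hfd }
  haveI : IsDiscreteValuationRing ↥(A.comap (algebraMap ↥L1 Qb)) :=
    dsc_isDVR_comap_numberField A p hA hp0 ↥L1
  obtain ⟨π, hπ⟩ := IsDiscreteValuationRing.exists_irreducible ↥(A.comap (algebraMap ↥L1 Qb))
  have hmem := lg_natCast_mem_maximalIdeal A hA ↥L1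
  haveI : CharP (ResidueField ↥(A.comap (algebraMap ↥L1 Qb))) p := ss_nfl_charP_residue hmem
  -- the Atkin-Lehner side
  have hW : ssm_al_iotaF ↥L1 (M * p) (rdn_gf_W ↥L1 M p hpM f1) =
      ssm_al_Wbar M p hpF.out hpM f := by
    rw [rdn_gf_W_apply, ssm_al_W_spec, hf1]
  have hf1ne : f1 ≠ 0 := by
    rintro rfl
    rw [map_zero] at hf1
    exact hf.1 hf1.symm
  have hg11ne : g11 ≠ 0 := by
    rintro rfl
    rw [map_zero] at hg11
    exact hg₁ hg11.symm
  have hg01ne : g01 ≠ 0 := by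
    rintro rfl
    rw [map_zero] at hg01
    exact hg₀ hg01.symm
  -- depth one over the number field
  have d1 : s44dn_Depth (A.comap (algebraMap ↥L1 Qb)) M p π 1 f1 := by
    refine s44dq_nf_of_bar M p A L1 hA hπ f1 g11 b11 ⟨c₁, hc₁L⟩ hc₁A hg11ne ?_ ?_
    · rw [hb11]; exact hb₁
    · rw [hf1, hg11, hb11]; exact e₁
  have d1W : s44dn_Depth (A.comap (algebraMap ↥L1 Qb)) M p π 1 (rdn_gf_W ↥L1 M p hpM f1) := by
    refine s44dq_nf_of_bar M p A L1 hA hπ _ g01 b01 ⟨c₀, hc₀L⟩ hc₀A hg01ne ?_ ?_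
    · rw [hb01]; exact hb₀
    · rw [hW, hg01, hb01]; exact e₀
  -- the norm hypotheses
  have hNα := s44dq_norm_desc M p ↥L1 hpF.out hpM hp0 f1 (ssm_al_iotaF ↥L1 (M * p) f1) rfl (by
    obtain ⟨g, -, hg⟩ := s44dqn_alpha M p z f hf has
    exact ⟨1, g, by rw [hf1, hg, map_one, one_mul]⟩)
  have hNβ := s44dq_norm_desc M p ↥L1 hpF.out hpM hp0 (rdn_gf_W ↥L1 M p hpM f1)
    (ssm_al_iotaF ↥L1 (M * p) (rdn_gf_W ↥L1 M p hpM f1)) rfl (by
    obtain ⟨g, -, hg⟩ := s44dqn_beta M p hpF.out hpM z f hf hbs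
    exact ⟨1, g, by rw [hW, hg, map_one, one_mul]⟩)
  -- [D1]
  have key := s44dn_main (A.comap (algebraMap ↥L1 Qb)) hπ M p hpM f1 hf1ne hNα hNβ d1 d1W
  -- the uniformiser
  have hπm : π ∈ maximalIdeal ↥(A.comap (algebraMap ↥L1 Qb)) := by
    rw [hπ.maximalIdeal_eq]
    exact Ideal.mem_span_singleton_self π
  have hπA : (((π : ↥L1) : Qb)) ∈ A.nonunits :=
    (dsc_mem_comap_nonunits_iff A ↥L1 (π : ↥L1)).1
      ((ValuationSubring.coe_mem_nonunits_iff).2 hπm)
  have hπ0 : (((π : ↥L1) : Qb)) ≠ 0 := by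
    intro h
    apply hπ.ne_zero
    apply Subtype.ext
    apply Subtype.ext
    exact h
  refine ⟨((π : ↥L1) : Qb), hπA, hπ0, fun n hn => ?_⟩
  obtain ⟨k1, k2⟩ := key n hn
  constructor
  · obtain ⟨G, B, hG, hB, e⟩ := s44dq_bar_of_nf M p A L1 π n f1 k1
    refine s44b_depth2_of_rep (M * p) A (AlgHom.id _ _) hf hG hB ?_
    rw [AlgHom.id_apply, ← hf1]
    exact e
  · obtain ⟨G, B, hG, hB, e⟩ := s44dq_bar_of_nf M p A L1 π n _ k2
    refine s44b_depth2_of_rep (M * p) A (ssm_al_Wbar M p hpF.out hpM) hf hG hB ?_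
    rw [← hW]
    exact e

end Core

/-- **[D2]** the dichotomy cell of the frame (version 2). -/
theorem s44dq_dich (P : FreyPackage) (M : ℕ) [NeZero M] [NeZero (M * P.p)] (hpM : ¬ P.p ∣ M) :
    s44_Dich_stmt (s44_frame2 P M hpM) := by
  intro z hz has hbs hD1 hD0
  haveI : Fact P.p.Prime := ⟨P.pp⟩
  obtain ⟨c₁, -, hc₁A, h1⟩ := hD1
  obtain ⟨c₀, -, hc₀A, h0⟩ := hD0
  obtain ⟨π, hπA, hπ0, h⟩ := s44dq_core M P.p hpM (s44f_A P.p P.pp) (s44f_A_liesOver P.p P.pp)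
    z hz has hbs hc₁A hc₀A h1 h0
  exact s44b_split2_of_pow P M hpM hπA hπ0 1 h

end Fermat.Agent.S44
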